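import Mathlib

/-!
# S55, layer L, helper355: discrete logarithm in a finite cyclic group and the carry function

`cidx σ g` is the least `i` with `σ ^ i = g` (when `σ` generates the finite group `G`).
-/

set_option autoImplicit false

namespace Fermat.Agent.S55.L.H355

section

variable {G : Type} [Group G]

open Classical in
/-- Discrete logarithm: the least `i < orderOf σ` with `σ ^ i = g` (junk value `0` if none). -/
noncomputable def cidx (σ g : G) : ℕ :=
  if h : ∃ i, i < orderOf σ ∧ σ ^ i = g then Nat.find h else 0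

variable [Finite G] {σ : G}

theorem exists_lt_pow_eq (hσ : ∀ x, x ∈ Subgroup.zpowers σ) (g : G) :
    ∃ i, i < orderOf σ ∧ σ ^ i = g := by
  have h1 : g ∈ Submonoid.powers σ := mem_powers_iff_mem_zpowers.2 (hσ g)
  obtain ⟨m, hm⟩ := (Submonoid.mem_powers_iff g σ).1 h1
  exact ⟨m % orderOf σ, Nat.mod_lt _ (orderOf_pos σ), by rw [pow_mod_orderOf, hm]⟩

theorem cidx_lt (σ g : G) : cidx σ g < orderOf σ := by
  classical
  unfold cidx
  split_ifs with h
  · exact (Nat.find_spec h).1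
  · exact orderOf_pos σ

theorem pow_cidx (hσ : ∀ x, x ∈ Subgroup.zpowers σ) (g : G) : σ ^ cidx σ g = g := by
  classical
  unfold cidx
  rw [dif_pos (exists_lt_pow_eq hσ g)]
  exact (Nat.find_spec (exists_lt_pow_eq hσ g)).2

theorem cidx_eq_of_lt {i : ℕ} (hi : i < orderOf σ) {g : G} (h : σ ^ i = g) : cidx σ g = i := by
  classical
  have hex : ∃ i, i < orderOf σ ∧ σ ^ i = g := ⟨i, hi, h⟩
  have h1 : cidx σ g < orderOf σ := cidx_lt σ g
  have h2 : σ ^ cidx σ g = g := by
    unfold cidx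
    rw [dif_pos hex]
    exact (Nat.find_spec hex).2
  exact pow_injOn_Iio_orderOf (Set.mem_Iio.2 h1) (Set.mem_Iio.2 hi) (h2.trans h.symm)

theorem cidx_pow (i : ℕ) : cidx σ (σ ^ i) = i % orderOf σ :=
  cidx_eq_of_lt (Nat.mod_lt _ (orderOf_pos σ)) (pow_mod_orderOf σ i)

theorem cidx_one : cidx σ (1 : G) = 0 :=
  cidx_eq_of_lt (orderOf_pos σ) (pow_zero σ)

theorem cidx_mul (hσ : ∀ x, x ∈ Subgroup.zpowers σ) (g h : G) :
    cidx σ (g * h) = (cidx σ g + cidx σ h) % orderOf σ := by
  have : g * h = σ ^ (cidx σ g + cidx σ h) := by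
    rw [pow_add, pow_cidx hσ, pow_cidx hσ]
  rw [this, cidx_pow]

theorem cidx_self : cidx σ σ = 1 % orderOf σ := by
  have := cidx_pow (σ := σ) 1
  rwa [pow_one] at this

theorem cidx_mul_eq_ite (hσ : ∀ x, x ∈ Subgroup.zpowers σ) (g h : G) :
    cidx σ (g * h) = if cidx σ g + cidx σ h < orderOf σ then cidx σ g + cidx σ h
      else cidx σ g + cidx σ h - orderOf σ := by
  rw [cidx_mul hσ]
  have h1 := cidx_lt σ g
  have h2 := cidx_lt σ h
  split_ifs with hlt
  · exact Nat.mod_eq_of_lt hlt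
  · rw [Nat.mod_eq_sub_mod (not_lt.1 hlt)]
    exact Nat.mod_eq_of_lt (by omega)

end

end Fermat.Agent.S55.L.H355
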