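import Mathlib

/-!
# S55, layer L, helper355: two elementary lemmas on finite fields and powers of `q`
-/

set_option autoImplicit false

namespace Fermat.Agent.S55.L.H355

/-- If `x ^ m = x ^ m'` for all `x` in a finite field `k` then `m ≡ m'` modulo `|k| - 1`. -/
theorem modEq_of_forall_pow_eq {k : Type} [Field k] [Finite k] {m m' : ℕ}
    (h : ∀ x : k, x ^ m = x ^ m') : m ≡ m' [MOD Nat.card k - 1] := by
  obtain ⟨g, hg⟩ := IsCyclic.exists_generator (α := kˣ)
  have hord : orderOf g = Nat.card k - 1 := by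
    rw [orderOf_eq_card_of_forall_mem_zpowers hg, Nat.card_units]
  have h1 : g ^ m = g ^ m' := by
    apply Units.ext
    simpa using h (g : k)
  rw [← hord]
  exact pow_eq_pow_iff_modEq.1 h1

/-- The multiplicative order of `q` modulo `q ^ n - 1` is `n`. -/
theorem modEq_of_pow_modEq {q n a b : ℕ} (hq : 2 ≤ q) (hn : 0 < n)
    (h : q ^ a ≡ q ^ b [MOD q ^ n - 1]) : a ≡ b [MOD n] := by
  rcases Nat.lt_or_ge 1 n with hn2 | hn1
  · -- `n ≥ 2`
    have hqn : q ^ n ≡ 1 [MOD q ^ n - 1] := by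
      have h1 : 1 ≤ q ^ n := Nat.one_le_pow _ _ (by omega)
      exact ((Nat.modEq_iff_dvd' h1).2 (dvd_refl _)).symm
    have hred : ∀ c : ℕ, q ^ c ≡ q ^ (c % n) [MOD q ^ n - 1] := by
      intro c
      conv_lhs => rw [← Nat.div_add_mod c n]
      rw [pow_add, pow_mul]
      calc (q ^ n) ^ (c / n) * q ^ (c % n) ≡ 1 ^ (c / n) * q ^ (c % n) [MOD q ^ n - 1] :=
            (hqn.pow _).mul_right _
        _ = q ^ (c % n) := by rw [one_pow, one_mul]
    have h2 : q ^ (a % n) ≡ q ^ (b % n) [MOD q ^ n - 1] := ((hred a).symm.trans h).trans (hred b)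
    have hlt : ∀ c : ℕ, c < n → q ^ c < q ^ n - 1 := by
      intro c hc
      have h3 : q ^ c ≤ q ^ (n - 1) := Nat.pow_le_pow_right (by omega) (by omega)
      have h4 : q ^ n = q ^ (n - 1) * q := by
        rw [← pow_succ]; congr 1; omega
      have h5 : 2 ≤ q ^ (n - 1) := by
        calc 2 ≤ q := hq
          _ = q ^ 1 := (pow_one q).symm
          _ ≤ q ^ (n - 1) := Nat.pow_le_pow_right (by omega) (by omega)
      have h6 : q ^ (n - 1) * 2 ≤ q ^ (n - 1) * q := Nat.mul_le_mul_left _ hq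
      omega
    have h3 := h2.eq_of_lt_of_lt (hlt _ (Nat.mod_lt _ hn)) (hlt _ (Nat.mod_lt _ hn))
    exact Nat.pow_right_injective hq h3
  · have : n = 1 := by omega
    rw [this]
    exact Nat.modEq_one

end Fermat.Agent.S55.L.H355
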