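import Fermat.Agent.S55.L.H355.Fund
import Fermat.Agent.S55.L.H355.FinField
import Fermat.Agent.S55.L.H355.CycIdx

/-!
# S55, layer L, helper355: unramified extensions — valuations, Galois stability, Frobenius

Setting: `L/K` fields, `A ⊆ K`, `B ⊆ L` rings of integers (complete DVRs with finite residue
fields), `π` a uniformizer of `A` whose image `ϖ` is a uniformizer of `B`.
-/

set_option autoImplicit false
set_option linter.style.haveILetI false

namespace Fermat.Agent.S55.L.H355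

open Fermat.Agent.S55.L

section General

variable {L : Type} [Field L] {B : ValuationSubring L} {ϖ : L}

/-- Decomposition `y = ϖ ^ ordZ y * w` with `w` a unit. -/
theorem exists_unit_mul_zpow (hB : IsDiscreteValuationRing B) (hϖ : IsUniformizer B ϖ) (y : Lˣ) :
    ∃ w : Lˣ, w ∈ B.unitGroup ∧
      y = (Units.mk0 ϖ (isUniformizer_ne_zero hϖ)) ^ (ordZ B ϖ y) * w := by
  set ϖu : Lˣ := Units.mk0 ϖ (isUniformizer_ne_zero hϖ) with hϖu
  refine ⟨ϖu ^ (-ordZ B ϖ y) * y, ?_, ?_⟩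
  · rw [← ordZ_eq_zero_iff hB hϖ, ordZ_mul hB hϖ, ordZ_zpow hB hϖ,
      ordZ_uniformizer hB hϖ ϖu rfl]
    ring
  · rw [← mul_assoc, ← zpow_add, add_neg_cancel, zpow_zero, one_mul]

/-- Any field automorphism fixing the uniformizer preserves `ordZ`. -/
theorem ordZ_map_of_fix (hB : IsLocalRingOfIntegers B) (hϖ : IsUniformizer B ϖ)
    (σ : L →+* L) (hσ : σ ϖ = ϖ) (y : Lˣ) :
    ordZ B ϖ (Units.map (σ : L →* L) y) = ordZ B ϖ y := by
  have hBd : IsDiscreteValuationRing B := hB.1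
  obtain ⟨w, hw, hy⟩ := exists_unit_mul_zpow hBd hϖ y
  set ϖu : Lˣ := Units.mk0 ϖ (isUniformizer_ne_zero hϖ) with hϖu
  have h1 : Units.map (σ : L →* L) ϖu = ϖu := by
    apply Units.ext
    simpa [hϖu] using hσ
  have h2 : Units.map (σ : L →* L) w ∈ B.unitGroup := map_mem_unitGroup hB hBd σ hw
  have h3 : Units.map (σ : L →* L) y = ϖu ^ (ordZ B ϖ y) * Units.map (σ : L →* L) w := by
    conv_lhs => rw [hy]
    rw [map_mul, map_zpow, h1]
  rw [h3, ordZ_mul hBd hϖ, ordZ_zpow hBd hϖ, ordZ_uniformizer hBd hϖ ϖu rfl,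
    (ordZ_eq_zero_iff hBd hϖ _).2 h2]
  ring

theorem map_mem_of_fix (hB : IsLocalRingOfIntegers B) (hϖ : IsUniformizer B ϖ)
    (σ : L →+* L) (hσ : σ ϖ = ϖ) {x : L} (hx : x ∈ B) : σ x ∈ B := by
  have hBd : IsDiscreteValuationRing B := hB.1
  by_cases h0 : x = 0
  · rw [h0, map_zero]; exact B.zero_mem
  have h1 := (ordZ_nonneg_iff hBd hϖ (Units.mk0 x h0)).2 hx
  rw [← ordZ_map_of_fix hB hϖ σ hσ] at h1
  exact (ordZ_nonneg_iff hBd hϖ _).1 h1

theorem map_val_lt_one_of_fix (hB : IsLocalRingOfIntegers B) (hϖ : IsUniformizer B ϖ)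
    (σ : L →+* L) (hσ : σ ϖ = ϖ) {x : L} (hx : B.valuation x < 1) : B.valuation (σ x) < 1 := by
  have hBd : IsDiscreteValuationRing B := hB.1
  by_cases h0 : x = 0
  · rw [h0, map_zero, map_zero]; exact zero_lt_one
  have h1 := (ordZ_pos_iff hBd hϖ (Units.mk0 x h0)).2 ((B.mem_nonunits_iff).2 hx)
  rw [← ordZ_map_of_fix hB hϖ σ hσ] at h1
  exact (B.mem_nonunits_iff).1 ((ordZ_pos_iff hBd hϖ _).1 h1)

/-- Iterating a Frobenius congruence. -/
theorem frob_iterate (hB : IsLocalRingOfIntegers B) (hϖ : IsUniformizer B ϖ)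
    (φ : L →+* L) (hφϖ : φ ϖ = ϖ) (q : ℕ)
    (hφ : ∀ x ∈ B, B.valuation (φ x - x ^ q) < 1) (i : ℕ) :
    ∀ x ∈ B, B.valuation ((φ ^ i) x - x ^ (q ^ i)) < 1 := by
  induction i with
  | zero =>
    intro x _
    simp
  | succ i ih =>
    intro x hx
    have e : (φ ^ (i + 1)) x - x ^ (q ^ (i + 1)) =
        φ ((φ ^ i) x - x ^ (q ^ i)) + (φ (x ^ (q ^ i)) - (x ^ (q ^ i)) ^ q) := by
      rw [pow_succ', RingHom.mul_def, RingHom.comp_apply, map_sub, ← pow_mul, ← pow_succ]
      ring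
    rw [e]
    exact Valuation.map_add_lt _ (map_val_lt_one_of_fix hB hϖ φ hφϖ (ih x hx))
      (hφ _ (B.pow_mem hx _))

end General

section Unram

variable {K L : Type} [Field K] [Field L] [Algebra K L]
  {A : ValuationSubring K} {B : ValuationSubring L} {π : K}
  (hA : IsLocalRingOfIntegers A) (hB : IsLocalRingOfIntegers B)
  (hπ : IsUniformizer A π) (hπB : IsUniformizer B (algebraMap K L π))

include hA hB hπ hπB in
/-- In an unramified extension, `ord_B` restricts to `ord_A`. -/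
theorem ordZ_algebraMap (x : Kˣ) :
    ordZ B (algebraMap K L π) (Units.map (algebraMap K L : K →* L) x) = ordZ A π x := by
  have hAd : IsDiscreteValuationRing A := hA.1
  have hBd : IsDiscreteValuationRing B := hB.1
  obtain ⟨u, hu, hx⟩ := exists_unit_mul_zpow hAd hπ x
  set πu : Kˣ := Units.mk0 π (isUniformizer_ne_zero hπ) with hπu
  have h1 : ordZ B (algebraMap K L π) (Units.map (algebraMap K L : K →* L) πu) = 1 :=
    ordZ_uniformizer hBd hπB _ rfl
  have h2 : Units.map (algebraMap K L : K →* L) u ∈ B.unitGroup :=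
    map_mem_unitGroup hA hBd (algebraMap K L) hu
  conv_lhs => rw [hx]
  rw [map_mul, map_zpow, ordZ_mul hBd hπB, ordZ_zpow hBd hπB, h1,
    (ordZ_eq_zero_iff hBd hπB _).2 h2]
  ring

include hA hB hπ hπB in
/-- `|k_B| = |k_A| ^ [L : K]` for an unramified extension. -/
theorem card_residue_unram :
    Nat.card (IsLocalRing.ResidueField B) =
      Nat.card (IsLocalRing.ResidueField A) ^ Module.finrank K L := by
  have := card_residue_pow_eq hA hB hπ hπB (e := 1) (by rw [pow_one]) one_pos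
  rwa [pow_one] at this

end Unram

end Fermat.Agent.S55.L.H355
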