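import Fermat.Agent.S55.L.H355.CycIdx

/-!
# S55, layer L, helper355: `H²` of a finite cyclic group by explicit cocycles

`G` finite, generated by `σ`, `n = orderOf σ`, `A : Rep k G`.

* `cycFun σ a (g, h) = if cidx g + cidx h < n then 0 else a`, a `2`-cocycle when `a` is invariant;
* `cycSum σ f = ∑_{i < n} f (σ ^ i, σ)`;
* every normalised `2`-cocycle `f` is `d b + cycFun σ (cycSum σ f)`;
* `cycFun σ a` is a coboundary iff `a` is a norm.
-/

set_option autoImplicit false

open groupCohomology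

namespace Fermat.Agent.S55.L.H355

section

set_option linter.unusedSectionVars false

variable {k G : Type} [CommRing k] [Group G] [Finite G] {A : Rep.{0} k G} {σ : G}

/-- The standard cyclic `2`-cochain attached to `a`. -/
noncomputable def cycFun (σ : G) (a : A) : G × G → A :=
  fun p => if cidx σ p.1 + cidx σ p.2 < orderOf σ then 0 else a

theorem cycFun_apply (a : A) (g h : G) :
    cycFun σ a (g, h) = if cidx σ g + cidx σ h < orderOf σ then 0 else a := rfl

theorem cycFun_add (a b : A) : cycFun σ (a + b) = cycFun σ a + cycFun σ b := by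
  funext p
  simp only [cycFun, Pi.add_apply]
  split_ifs <;> simp

theorem cycFun_zero : cycFun σ (0 : A) = 0 := by
  funext p
  simp [cycFun]

theorem cycFun_neg (a : A) : cycFun σ (-a) = -cycFun σ a := by
  funext p
  simp only [cycFun, Pi.neg_apply]
  split_ifs <;> simp

theorem cycFun_pow (a : A) {i j : ℕ} (hi : i < orderOf σ) (hj : j < orderOf σ) :
    cycFun σ a (σ ^ i, σ ^ j) = if i + j < orderOf σ then 0 else a := by
  rw [cycFun_apply, cidx_pow, cidx_pow, Nat.mod_eq_of_lt hi, Nat.mod_eq_of_lt hj]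

/-- The cyclic cochain of an invariant element is a `2`-cocycle. -/
theorem cycFun_mem_cocycles₂ (hσ : ∀ x, x ∈ Subgroup.zpowers σ) {a : A}
    (ha : ∀ g : G, A.ρ g a = a) : cycFun σ a ∈ cocycles₂ A := by
  rw [mem_cocycles₂_iff]
  intro g h j
  have hg := cidx_lt σ g
  have hh := cidx_lt σ h
  have hj := cidx_lt σ j
  simp only [cycFun_apply, cidx_mul_eq_ite hσ]
  have hρ : ∀ (c : Prop) [Decidable c], A.ρ g (if c then (0 : A) else a) = if c then 0 else a := by
    intro c _
    split_ifs
    · simp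
    · exact ha g
  rw [hρ]
  split_ifs <;> first | (exfalso; omega) | simp

/-- The cyclic cocycle of an invariant element. -/
noncomputable def cycCocycle (hσ : ∀ x, x ∈ Subgroup.zpowers σ) (a : A)
    (ha : ∀ g : G, A.ρ g a = a) : cocycles₂ A :=
  ⟨cycFun σ a, cycFun_mem_cocycles₂ hσ ha⟩

@[simp] theorem cycCocycle_apply (hσ : ∀ x, x ∈ Subgroup.zpowers σ) (a : A)
    (ha : ∀ g : G, A.ρ g a = a) (p : G × G) :
    (cycCocycle hσ a ha : G × G → A) p = cycFun σ a p := rfl

/-- `∑_{i < n} f (σ ^ i, σ)`. -/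
noncomputable def cycSum (σ : G) (f : G × G → A) : A :=
  ∑ i ∈ Finset.range (orderOf σ), f (σ ^ i, σ)

theorem cycSum_add (f g : G × G → A) : cycSum σ (f + g) = cycSum σ f + cycSum σ g := by
  simp [cycSum, Finset.sum_add_distrib]

/-- Cyclic shift of a sum over a full period. -/
theorem sum_range_pow_succ {M : Type*} [AddCommMonoid M] (F : G → M) :
    ∑ i ∈ Finset.range (orderOf σ), F (σ ^ (i + 1)) = ∑ i ∈ Finset.range (orderOf σ), F (σ ^ i) := by
  have hn : 0 < orderOf σ := orderOf_pos σ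
  obtain ⟨m, hm⟩ : ∃ m, orderOf σ = m + 1 := ⟨orderOf σ - 1, by omega⟩
  rw [hm, Finset.sum_range_succ, Finset.sum_range_succ']
  congr 1
  rw [← hm, pow_orderOf_eq_one, pow_zero]

/-- A `2`-cocycle is determined by its values on `(x, 1)` and `(x, σ)`. -/
theorem cocycle_ext_of_gen (hσ : ∀ x, x ∈ Subgroup.zpowers σ) {f g : G × G → A}
    (hf : f ∈ cocycles₂ A) (hg : g ∈ cocycles₂ A) (h1 : ∀ x, f (x, 1) = g (x, 1))
    (h2 : ∀ x, f (x, σ) = g (x, σ)) : f = g := by
  have key : ∀ (j : ℕ) (x : G), f (x, σ ^ j) = g (x, σ ^ j) := by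
    intro j
    induction j with
    | zero => intro x; simpa using h1 x
    | succ j ih =>
      intro x
      have e1 := (mem_cocycles₂_iff f).1 hf x (σ ^ j) σ
      have e2 := (mem_cocycles₂_iff g).1 hg x (σ ^ j) σ
      rw [pow_succ]
      have e3 : f (x, σ ^ j * σ) = f (x * σ ^ j, σ) + f (x, σ ^ j) - A.ρ x (f (σ ^ j, σ)) := by
        rw [e1]; abel
      have e4 : g (x, σ ^ j * σ) = g (x * σ ^ j, σ) + g (x, σ ^ j) - A.ρ x (g (σ ^ j, σ)) := by
        rw [e2]; abel
      rw [e3, e4, h2, ih, h2]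
  funext ⟨x, y⟩
  rw [← pow_cidx hσ y]
  exact key _ x

/-- `cycSum σ f` is invariant for a `2`-cocycle `f`. -/
theorem cycSum_invariant (hσ : ∀ x, x ∈ Subgroup.zpowers σ) {f : G × G → A}
    (hf : f ∈ cocycles₂ A) (g : G) : A.ρ g (cycSum σ f) = cycSum σ f := by
  have hgen : A.ρ σ (cycSum σ f) = cycSum σ f := by
    have e : ∀ l : ℕ, f (σ ^ (l + 1), σ) + f (σ, σ ^ l) =
        A.ρ σ (f (σ ^ l, σ)) + f (σ, σ ^ (l + 1)) := by
      intro l
      have := (mem_cocycles₂_iff f).1 hf σ (σ ^ l) σ
      rwa [← pow_succ', ← pow_succ] at this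
    have hs := Finset.sum_congr (s₁ := Finset.range (orderOf σ)) rfl (fun l _ => e l)
    rw [Finset.sum_add_distrib, Finset.sum_add_distrib] at hs
    have s1 := sum_range_pow_succ (σ := σ) (fun x => f (x, σ))
    have s2 := sum_range_pow_succ (σ := σ) (fun x => f (σ, x))
    rw [s1, s2] at hs
    have hs' := add_right_cancel hs
    rw [cycSum, map_sum]
    exact hs'.symm
  have hpow : ∀ i : ℕ, A.ρ (σ ^ i) (cycSum σ f) = cycSum σ f := by
    intro i
    induction i with
    | zero => simp
    | succ i ih => rw [pow_succ, map_mul, Module.End.mul_apply, hgen, ih]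
  rw [← pow_cidx hσ g]
  exact hpow _

/-- The `1`-cochain `b (x) = - ∑_{l < cidx x} f (σ ^ l, σ)`. -/
noncomputable def cycPrim (σ : G) (f : G × G → A) : G → A :=
  fun x => -∑ l ∈ Finset.range (cidx σ x), f (σ ^ l, σ)

/-- **Normal form.** A normalised `2`-cocycle is the sum of a coboundary and the cyclic cocycle
of `cycSum σ f`. -/
theorem cocycle_eq_d_add_cycFun (hσ : ∀ x, x ∈ Subgroup.zpowers σ) {f : G × G → A}
    (hf : f ∈ cocycles₂ A) (h0 : f (1, 1) = 0) :
    f = (d₁₂ A).hom (cycPrim σ f) + cycFun σ (cycSum σ f) := by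
  have hfc : (⟨f, hf⟩ : cocycles₂ A) (1, 1) = 0 := h0
  have hf1 : ∀ g : G, f (1, g) = 0 := fun g => by
    have := cocycles₂_map_one_fst (⟨f, hf⟩ : cocycles₂ A) g
    rw [hfc] at this
    exact this
  have hf2 : ∀ g : G, f (g, 1) = 0 := fun g => by
    have := cocycles₂_map_one_snd (⟨f, hf⟩ : cocycles₂ A) g
    rw [hfc, map_zero] at this
    exact this
  have hcyc := cycFun_mem_cocycles₂ hσ (cycSum_invariant hσ hf)
  have hd : (d₁₂ A).hom (cycPrim σ f) ∈ cocycles₂ A := d₁₂_apply_mem_cocycles₂ _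
  have hn : 0 < orderOf σ := orderOf_pos σ
  have hb1 : cycPrim σ f 1 = 0 := by simp [cycPrim, cidx_one]
  have hbσ : cycPrim σ f σ = 0 := by
    simp only [cycPrim, cidx_self]
    rcases Nat.lt_or_ge 1 (orderOf σ) with h | h
    · rw [Nat.mod_eq_of_lt h]
      simp [hf1]
    · have : orderOf σ = 1 := by omega
      simp [this]
  refine cocycle_ext_of_gen hσ hf ((cocycles₂ A).add_mem hd hcyc) ?_ ?_
  · intro x
    rw [hf2, Pi.add_apply, d₁₂_hom_apply, cycFun_apply]
    simp only [mul_one, hb1, map_zero, cidx_one, add_zero]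
    rw [if_pos (cidx_lt σ x)]
    simp
  · intro x
    rw [Pi.add_apply, d₁₂_hom_apply, cycFun_apply]
    simp only [hbσ, map_zero, zero_sub]
    have hx := cidx_lt σ x
    have hxx : f (x, σ) = f (σ ^ cidx σ x, σ) := by rw [pow_cidx hσ]
    rcases Nat.lt_or_ge 1 (orderOf σ) with h | h
    · -- `n ≥ 2`
      have hs : cidx σ σ = 1 := by rw [cidx_self, Nat.mod_eq_of_lt h]
      rw [hs]
      rcases Nat.lt_or_ge (cidx σ x + 1) (orderOf σ) with hlt | hge
      · rw [if_pos hlt]
        have hm : cidx σ (x * σ) = cidx σ x + 1 := by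
          rw [cidx_mul hσ, hs, Nat.mod_eq_of_lt hlt]
        simp only [cycPrim, hm, Finset.sum_range_succ, neg_add_rev]
        rw [hxx]
        abel
      · rw [if_neg (not_lt.2 hge)]
        have hm : cidx σ (x * σ) = 0 := by
          rw [cidx_mul hσ, hs]
          have : cidx σ x + 1 = orderOf σ := by omega
          rw [this, Nat.mod_self]
        have hsum : cycSum σ f = ∑ l ∈ Finset.range (cidx σ x), f (σ ^ l, σ)
            + f (σ ^ cidx σ x, σ) := by
          rw [cycSum, ← Finset.sum_range_succ]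
          congr 2
          omega
        simp only [cycPrim, hm, Finset.range_zero, Finset.sum_empty, neg_zero]
        rw [hsum, hxx]
        abel
    · -- `n = 1`
      have h1 : orderOf σ = 1 := by omega
      have hx0 : cidx σ x = 0 := by omega
      have hs : cidx σ σ = 0 := by rw [cidx_self, h1]
      have hm : cidx σ (x * σ) = 0 := by rw [cidx_mul hσ, hx0, hs, h1]
      have hx1 : x = 1 := by rw [← pow_cidx hσ x, hx0, pow_zero]
      rw [hx0, hs, if_pos (by omega)]
      simp only [cycPrim, hm, hx0, Finset.range_zero, Finset.sum_empty, neg_zero]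
      rw [hx1, hf1]
      simp

end

end Fermat.Agent.S55.L.H355
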