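import Fermat.Agent.S55.L.H355.CycH2

/-!
# S55, layer L, helper355: `H²` of a finite cyclic group by explicit cocycles, part 2

* `cycSum σ (d b) = N (b σ)`;
* `cycSum σ (cycFun σ a) = a` (if `2 ≤ n`);
* `cycFun σ (N m)` is a coboundary; conversely if `cycFun σ a` is a coboundary then `a` is a norm;
* every `2`-cocycle is cohomologous to a cyclic cocycle.
-/

set_option autoImplicit false

open groupCohomology

namespace Fermat.Agent.S55.L.H355

section

set_option linter.unusedSectionVars false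

variable {k G : Type} [CommRing k] [Group G] [Finite G] {A : Rep.{0} k G} {σ : G}

/-- The norm `∑_{i < n} σ ^ i • m` along the generator `σ`. -/
noncomputable def cycNorm (σ : G) (m : A) : A :=
  ∑ i ∈ Finset.range (orderOf σ), A.ρ (σ ^ i) m

theorem cycNorm_add (m m' : A) : cycNorm σ (m + m') = cycNorm σ m + cycNorm σ m' := by
  simp [cycNorm, Finset.sum_add_distrib]

theorem cycNorm_invariant_gen (m : A) : A.ρ σ (cycNorm σ m) = cycNorm σ m := by
  rw [cycNorm, map_sum]
  have := sum_range_pow_succ (σ := σ) (fun x => A.ρ x m)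
  rw [← this]
  refine Finset.sum_congr rfl fun i _ => ?_
  rw [pow_succ', map_mul, Module.End.mul_apply]

theorem cycNorm_invariant (hσ : ∀ x, x ∈ Subgroup.zpowers σ) (m : A) (g : G) :
    A.ρ g (cycNorm σ m) = cycNorm σ m := by
  have hpow : ∀ i : ℕ, A.ρ (σ ^ i) (cycNorm σ m) = cycNorm σ m := by
    intro i
    induction i with
    | zero => simp
    | succ i ih => rw [pow_succ, map_mul, Module.End.mul_apply, cycNorm_invariant_gen, ih]
  rw [← pow_cidx hσ g]
  exact hpow _

theorem cycNorm_of_invariant {a : A} (ha : A.ρ σ a = a) : cycNorm σ a = orderOf σ • a := by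
  have hpow : ∀ i : ℕ, A.ρ (σ ^ i) a = a := by
    intro i
    induction i with
    | zero => simp
    | succ i ih => rw [pow_succ, map_mul, Module.End.mul_apply, ha, ih]
  rw [cycNorm, Finset.sum_congr rfl (fun i _ => hpow i)]
  simp

/-- `cycSum` of a coboundary is a norm. -/
theorem cycSum_d₁₂ (b : G → A) : cycSum σ ((d₁₂ A).hom b) = cycNorm σ (b σ) := by
  simp only [cycSum, d₁₂_hom_apply, cycNorm]
  rw [Finset.sum_add_distrib, Finset.sum_sub_distrib]
  have := sum_range_pow_succ (σ := σ) (fun x => b x)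
  simp only [pow_succ] at this
  rw [this]
  abel

/-- `cycSum` of a cyclic cochain (`2 ≤ n`). -/
theorem cycSum_cycFun (h2 : 2 ≤ orderOf σ) (a : A) : cycSum σ (cycFun σ a) = a := by
  obtain ⟨m, hm⟩ : ∃ m, orderOf σ = m + 1 := ⟨orderOf σ - 1, by omega⟩
  have hs : cidx σ σ = 1 := by rw [cidx_self, Nat.mod_eq_of_lt (by omega)]
  rw [cycSum, hm, Finset.sum_range_succ]
  have h1 : ∀ i ∈ Finset.range m, cycFun σ a (σ ^ i, σ) = 0 := by
    intro i hi
    have hi' := Finset.mem_range.1 hi
    rw [cycFun_apply, cidx_pow, hs, Nat.mod_eq_of_lt (by omega), if_pos (by omega)]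
  rw [Finset.sum_eq_zero h1, zero_add, cycFun_apply, cidx_pow, hs, Nat.mod_eq_of_lt (by omega),
    if_neg (by omega)]

/-- `cycSum` of a cyclic cochain (`n = 1`). -/
theorem cycSum_cycFun_of_one (h1 : orderOf σ = 1) (a : A) : cycSum σ (cycFun σ a) = 0 := by
  rw [cycSum, h1, Finset.sum_range_one, cycFun_apply, pow_zero, cidx_one, cidx_self, h1,
    if_pos (by simp)]

/-- The primitive of the cyclic cocycle of a norm. -/
noncomputable def normPrim (σ : G) (m : A) : G → A :=
  fun x => ∑ l ∈ Finset.range (cidx σ x), A.ρ (σ ^ l) m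

/-- The cyclic cochain of a norm is a coboundary. -/
theorem cycFun_cycNorm (hσ : ∀ x, x ∈ Subgroup.zpowers σ) (m : A) :
    cycFun σ (cycNorm σ m) = (d₁₂ A).hom (normPrim σ m) := by
  have hcyc := cycFun_mem_cocycles₂ hσ (cycNorm_invariant hσ m)
  have hd : (d₁₂ A).hom (normPrim σ m) ∈ cocycles₂ A := d₁₂_apply_mem_cocycles₂ _
  have hn : 0 < orderOf σ := orderOf_pos σ
  have hb1 : normPrim σ m 1 = 0 := by simp [normPrim, cidx_one]
  refine cocycle_ext_of_gen hσ hcyc hd ?_ ?_
  · intro x
    rw [d₁₂_hom_apply, cycFun_apply]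
    simp only [mul_one, hb1, map_zero, cidx_one, add_zero]
    rw [if_pos (cidx_lt σ x)]
    simp
  · intro x
    rw [d₁₂_hom_apply, cycFun_apply]
    have hx := cidx_lt σ x
    have hρx : A.ρ x m = A.ρ (σ ^ cidx σ x) m := by rw [pow_cidx hσ]
    rcases Nat.lt_or_ge 1 (orderOf σ) with h | h
    · have hs : cidx σ σ = 1 := by rw [cidx_self, Nat.mod_eq_of_lt h]
      have hbσ : normPrim σ m σ = m := by simp [normPrim, hs]
      simp only [hs, hbσ]
      rcases Nat.lt_or_ge (cidx σ x + 1) (orderOf σ) with hlt | hge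
      · rw [if_pos hlt]
        have hm : cidx σ (x * σ) = cidx σ x + 1 := by
          rw [cidx_mul hσ, hs, Nat.mod_eq_of_lt hlt]
        simp only [normPrim, hm, Finset.sum_range_succ]
        rw [hρx]
        abel
      · rw [if_neg (not_lt.2 hge)]
        have hm : cidx σ (x * σ) = 0 := by
          rw [cidx_mul hσ, hs]
          have : cidx σ x + 1 = orderOf σ := by omega
          rw [this, Nat.mod_self]
        have hsum : cycNorm σ m = ∑ l ∈ Finset.range (cidx σ x), A.ρ (σ ^ l) m
            + A.ρ (σ ^ cidx σ x) m := by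
          rw [cycNorm, ← Finset.sum_range_succ]
          congr 2
          omega
        simp only [normPrim, hm, Finset.range_zero, Finset.sum_empty]
        rw [hsum, hρx]
        abel
    · have h1 : orderOf σ = 1 := by omega
      have hx0 : cidx σ x = 0 := by omega
      have hs : cidx σ σ = 0 := by rw [cidx_self, h1]
      have hm : cidx σ (x * σ) = 0 := by rw [cidx_mul hσ, hx0, hs, h1]
      rw [hx0, hs, if_pos (by omega)]
      simp [normPrim, hm, hx0, hs]

/-- If the cyclic cochain of `a` is a coboundary then `a` is a norm. -/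
theorem exists_cycNorm_of_cycFun_eq_d₁₂ {a : A} {b : G → A}
    (h : cycFun σ a = (d₁₂ A).hom b) : ∃ m, a = cycNorm σ m := by
  rcases Nat.lt_or_ge 1 (orderOf σ) with h2 | h2
  · refine ⟨b σ, ?_⟩
    rw [← cycSum_d₁₂, ← h, cycSum_cycFun h2]
  · have h1 : orderOf σ = 1 := by have := orderOf_pos σ; omega
    exact ⟨a, by simp [cycNorm, h1]⟩

/-- The constant `1`-cochain used to normalise a `2`-cocycle. -/
theorem d₁₂_const (c : A) (g h : G) : (d₁₂ A).hom (fun _ => c) (g, h) = A.ρ g c := by
  rw [d₁₂_hom_apply]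
  abel

/-- **Normal form, general case.** Every `2`-cocycle is the sum of a coboundary and the cyclic
cochain of an invariant element. -/
theorem exists_cocycle_eq_d_add_cycFun (hσ : ∀ x, x ∈ Subgroup.zpowers σ) {f : G × G → A}
    (hf : f ∈ cocycles₂ A) :
    ∃ (a : A) (b : G → A), (∀ g, A.ρ g a = a) ∧ f = (d₁₂ A).hom b + cycFun σ a := by
  set c : A := f (1, 1) with hc
  set f₀ : G × G → A := f - (d₁₂ A).hom (fun _ => c) with hf₀
  have hf₀mem : f₀ ∈ cocycles₂ A := (cocycles₂ A).sub_mem hf (d₁₂_apply_mem_cocycles₂ _)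
  have h0 : f₀ (1, 1) = 0 := by
    rw [hf₀, Pi.sub_apply, d₁₂_const, map_one, Module.End.one_apply, hc, sub_self]
  have key := cocycle_eq_d_add_cycFun hσ hf₀mem h0
  refine ⟨cycSum σ f₀, cycPrim σ f₀ + fun _ => c, cycSum_invariant hσ hf₀mem, ?_⟩
  rw [map_add]
  have : f = f₀ + (d₁₂ A).hom (fun _ => c) := by rw [hf₀]; abel
  rw [this]
  nth_rewrite 1 [key]
  abel

end

end Fermat.Agent.S55.L.H355
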