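import Fermat.Agent.S55.L.H355.Unram

/-!
# S55, layer L, helper355: Frobenius elements of an unramified extension

Setting: `L/K` finite, `A ⊆ K`, `B ⊆ L` rings of integers, `π` a uniformizer of `A` whose image is
a uniformizer of `B` (unramified).  If `φ` is a Frobenius element and `g = φ ^ i` acts on the
residue field as `x ↦ x ^ (q ^ j)`, then `i ≡ j` modulo `[L : K]`.

Consequences: the inertia group is trivial, the Frobenius element is unique.
-/

set_option autoImplicit false
set_option linter.style.haveILetI false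

namespace Fermat.Agent.S55.L.H355

open Fermat.Agent.S55.L

section

variable {K L : Type} [Field K] [Field L] [Algebra K L]

/-- An extension field of a local field carrying a ring of integers is a local field. -/
theorem isLocalFld_of_ringOfIntegers [IsLocalFld K] {B : ValuationSubring L}
    (hB : IsLocalRingOfIntegers B) : IsLocalFld L where
  charZero := by
    haveI := IsLocalFld.charZero (K := K)
    exact charZero_of_injective_algebraMap (algebraMap K L).injective
  exists_ringOfIntegers := ⟨B, hB⟩

theorem ringHom_pow_apply (φ : L ≃ₐ[K] L) (i : ℕ) (x : L) :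
    (((φ : L ≃ₐ[K] L) : L →+* L) ^ i) x = (φ ^ i) x := by
  induction i generalizing x with
  | zero => rfl
  | succ i ih =>
    rw [pow_succ', pow_succ', RingHom.mul_def, RingHom.comp_apply, ih, AlgEquiv.mul_apply]
    rfl

variable {A : ValuationSubring K} {B : ValuationSubring L} {π : K}
  (hA : IsLocalRingOfIntegers A) (hB : IsLocalRingOfIntegers B)
  (hπ : IsUniformizer A π) (hπB : IsUniformizer B (algebraMap K L π))

include hA hB hπ hπB in
/-- **Key lemma.** If `φ` is a Frobenius element and `g = φ ^ i` acts on the residue field as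
`x ↦ x ^ (q ^ j)`, then `i ≡ j` modulo `[L : K]`. -/
theorem modEq_of_frob_pow [FiniteDimensional K L] (φ : L ≃ₐ[K] L)
    (hφ : ∀ x ∈ B, φ x - x ^ Nat.card (IsLocalRing.ResidueField A) ∈ B.nonunits)
    (g : L ≃ₐ[K] L) (i j : ℕ) (hg : g = φ ^ i)
    (hgj : ∀ x ∈ B, g x - x ^ (Nat.card (IsLocalRing.ResidueField A) ^ j) ∈ B.nonunits) :
    i ≡ j [MOD Module.finrank K L] := by
  haveI : Finite (IsLocalRing.ResidueField B) := hB.2.2
  set q := Nat.card (IsLocalRing.ResidueField A) with hq
  have hq2 : 2 ≤ q := one_lt_card_residue hA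
  have hn : 0 < Module.finrank K L := Module.finrank_pos
  have hcard : Nat.card (IsLocalRing.ResidueField B) = q ^ Module.finrank K L :=
    card_residue_unram hA hB hπ hπB
  have key : ∀ y : IsLocalRing.ResidueField B, y ^ (q ^ i) = y ^ (q ^ j) := by
    intro y
    obtain ⟨x, rfl⟩ := IsLocalRing.residue_surjective y
    have hx : (x : L) ∈ B := x.2
    have h1 := frob_iterate hB hπB (φ : L →+* L) (φ.commutes π) q
      (fun x hx => (B.mem_nonunits_iff).1 (hφ x hx)) i (x : L) hx
    rw [ringHom_pow_apply, ← hg] at h1
    have h2 := (B.mem_nonunits_iff).1 (hgj (x : L) hx)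
    have h3 : B.valuation ((x : L) ^ (q ^ i) - (x : L) ^ (q ^ j)) < 1 := by
      have := Valuation.map_sub_lt _ h2 h1
      have e : g (x : L) - (x : L) ^ (q ^ j) - (g (x : L) - (x : L) ^ (q ^ i)) =
          (x : L) ^ (q ^ i) - (x : L) ^ (q ^ j) := by ring
      rwa [e] at this
    have h4 : x ^ (q ^ i) - x ^ (q ^ j) ∈ IsLocalRing.maximalIdeal B := by
      rw [B.valuation_lt_one_iff]
      simpa using h3
    have h5 := (IsLocalRing.residue_eq_zero_iff _).2 h4
    rw [map_sub, map_pow, map_pow, sub_eq_zero] at h5
    exact h5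
  have h6 := modEq_of_forall_pow_eq key
  rw [hcard] at h6
  exact modEq_of_pow_modEq hq2 hn h6

end

end Fermat.Agent.S55.L.H355
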