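import Mathlib

/-!
# S55, layer L, helper355: a concrete "complete Nakayama" lemma

If `A` is `π`-adically precomplete, `N` is `π`-adically separated and the finite family `s`
generates `N` modulo `π`, then `s` generates `N`.
-/

set_option autoImplicit false

namespace Fermat.Agent.S55.L.H355

theorem smodEq_span_pow_iff_dvd {A : Type} [CommRing A] (π : A) (m : ℕ) (x y : A) :
    x ≡ y [SMOD (Ideal.span {π} ^ m • ⊤ : Submodule A A)] ↔ π ^ m ∣ x - y := by
  rw [SModEq.sub_mem, smul_eq_mul, Ideal.mul_top, Ideal.span_singleton_pow,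
    Ideal.mem_span_singleton]

theorem exists_sum_smul_eq_of_approx {A : Type} [CommRing A] (π : A)
    (hprec : IsPrecomplete (Ideal.span {π}) A)
    {N : Type} [AddCommGroup N] [Module A N]
    (hhaus : ∀ x : N, (∀ n : ℕ, ∃ z : N, x = π ^ n • z) → x = 0)
    {ι : Type} [Fintype ι] (s : ι → N)
    (happrox : ∀ y : N, ∃ (a : ι → A) (z : N), y = ∑ i, a i • s i + π • z) (y : N) :
    ∃ α : ι → A, y = ∑ i, α i • s i := by
  classical
  choose a z hz using happrox
  let Y : ℕ → N := fun k => Nat.rec y (fun _ w => z w) k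
  have hY0 : Y 0 = y := rfl
  have hYs : ∀ k, Y (k + 1) = z (Y k) := fun k => rfl
  let S : ℕ → ι → A := fun m i => ∑ k ∈ Finset.range m, π ^ k * a (Y k) i
  have hS : ∀ m, y = ∑ i, S m i • s i + π ^ m • Y m := by
    intro m
    induction m with
    | zero => simp [S, hY0]
    | succ m ih =>
      have h1 : ∀ i, S (m + 1) i = S m i + π ^ m * a (Y m) i := fun i => by
        simp only [S, Finset.sum_range_succ]
      have h2 := hz (Y m)
      calc y = ∑ i, S m i • s i + π ^ m • Y m := ih
        _ = ∑ i, S m i • s i + π ^ m • (∑ i, a (Y m) i • s i + π • z (Y m)) := by rw [← h2]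
        _ = ∑ i, S (m + 1) i • s i + π ^ (m + 1) • Y (m + 1) := by
          rw [hYs, smul_add, Finset.smul_sum, ← add_assoc, ← Finset.sum_add_distrib, smul_smul,
            pow_succ]
          congr 1
          refine Finset.sum_congr rfl fun i _ => ?_
          rw [h1, add_smul, smul_smul]
  have hcauchy : ∀ i, ∀ {m n : ℕ}, m ≤ n →
      S m i ≡ S n i [SMOD (Ideal.span {π} ^ m • ⊤ : Submodule A A)] := by
    intro i m n hmn
    rw [smodEq_span_pow_iff_dvd]
    have : S n i - S m i = ∑ k ∈ Finset.Ico m n, π ^ k * a (Y k) i := by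
      simp only [S]
      rw [Finset.sum_Ico_eq_sub _ hmn]
    have h2 : π ^ m ∣ S n i - S m i := by
      rw [this]
      refine Finset.dvd_sum fun k hk => ?_
      have hk' := (Finset.mem_Ico.1 hk).1
      exact Dvd.dvd.mul_right (pow_dvd_pow π hk') _
    have h3 : S m i - S n i = -(S n i - S m i) := by ring
    rw [h3]
    exact (dvd_neg).2 h2
  have hlim : ∀ i, ∃ L : A, ∀ n, S n i ≡ L [SMOD (Ideal.span {π} ^ n • ⊤ : Submodule A A)] :=
    fun i => hprec.prec (hcauchy i)
  choose α hα using hlim
  refine ⟨α, ?_⟩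
  have hα' : ∀ i n, ∃ c : A, S n i - α i = π ^ n * c := by
    intro i n
    have := (smodEq_span_pow_iff_dvd π n _ _).1 (hα i n)
    exact this
  rw [← sub_eq_zero]
  apply hhaus
  intro n
  choose c hc using fun i => hα' i n
  refine ⟨∑ i, c i • s i + Y n, ?_⟩
  have h1 := hS n
  have h2 : ∀ i, S n i = α i + π ^ n * c i := fun i => by rw [← hc i]; ring
  calc y - ∑ i, α i • s i = (∑ i, S n i • s i + π ^ n • Y n) - ∑ i, α i • s i := by rw [← h1]
    _ = π ^ n • (∑ i, c i • s i + Y n) := by
      rw [smul_add, Finset.smul_sum, add_sub_right_comm, ← Finset.sum_sub_distrib]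
      congr 1
      refine Finset.sum_congr rfl fun i _ => ?_
      rw [h2, add_smul, add_sub_cancel_left, smul_smul]

end Fermat.Agent.S55.L.H355
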