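import Fermat.Agent.S55.L.H355.Hensel
import Fermat.Agent.S55.L.H355.Nakayama

/-!
# S55, layer L, helper355: the fundamental identity `e f = n` in cardinality form

For a field extension `L / K`, rings of integers `A ⊆ K`, `B ⊆ L` (complete DVRs with finite
residue fields), `π` a uniformizer of `A`, `ϖ` of `B` and `v_B (π) = v_B (ϖ) ^ e` with `e ≥ 1`:

  `|k_B| ^ e = |k_A| ^ [L : K]`.
-/

set_option autoImplicit false
set_option linter.style.haveILetI false

namespace Fermat.Agent.S55.L.H355

open Fermat.Agent.S55.L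

noncomputable section

variable {K L : Type} [Field K] [Field L] [Algebra K L]
  {A : ValuationSubring K} {B : ValuationSubring L}

/-- The inclusion of rings of integers. -/
def intHom (h : ∀ x ∈ A, algebraMap K L x ∈ B) : A →+* B where
  toFun x := ⟨algebraMap K L x, h x x.2⟩
  map_one' := Subtype.ext (by simp)
  map_mul' x y := Subtype.ext (by simp)
  map_zero' := Subtype.ext (by simp)
  map_add' x y := Subtype.ext (by simp)

@[simp] theorem intHom_coe (h : ∀ x ∈ A, algebraMap K L x ∈ B) (x : A) :
    ((intHom h x : B) : L) = algebraMap K L (x : K) := rfl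

theorem intHom_injective (h : ∀ x ∈ A, algebraMap K L x ∈ B) : Function.Injective (intHom h) := by
  intro x y hxy
  have := congrArg Subtype.val hxy
  simp only [intHom_coe] at this
  exact Subtype.ext ((algebraMap K L).injective this)

variable (hA : IsLocalRingOfIntegers A) (hB : IsLocalRingOfIntegers B)
  {π : K} (hπ : IsUniformizer A π) {ϖ : L} (hϖ : IsUniformizer B ϖ) {e : ℕ}
  (hval : B.valuation (algebraMap K L π) = B.valuation ϖ ^ e)

include hA hB hπ hϖ hval in
/-- `A ⊆ B`. -/
theorem algebraMap_mem_of_mem {x : K} (hx : x ∈ A) : algebraMap K L x ∈ B := by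
  refine map_mem_of_mem hA hB.1 (algebraMap K L) hπ ?_ hx
  rw [← B.valuation_le_one_iff, hval]
  exact pow_le_one₀ (isUniformizer_val_pos hϖ).le (isUniformizer_val_lt_one hϖ).le

include hA hB hπ hϖ hval in
/-- The image of the maximal ideal of `A` generates `𝔪_B ^ e`. -/
theorem map_maximalIdeal_eq :
    Ideal.map (intHom (fun x hx => algebraMap_mem_of_mem hA hB hπ hϖ hval hx))
      (IsLocalRing.maximalIdeal A) = IsLocalRing.maximalIdeal B ^ e := by
  haveI : IsDiscreteValuationRing A := hA.1
  haveI : IsDiscreteValuationRing B := hB.1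
  obtain ⟨hπm, hπirr⟩ := hπ
  obtain ⟨hϖm, hϖirr⟩ := hϖ
  rw [hπirr.maximalIdeal_eq, hϖirr.maximalIdeal_eq, Ideal.map_span, Set.image_singleton,
    Ideal.span_singleton_pow]
  set ι := intHom (fun x hx => algebraMap_mem_of_mem hA hB ⟨hπm, hπirr⟩ ⟨hϖm, hϖirr⟩ hval hx)
  have hne : ι ⟨π, hπm⟩ ≠ 0 := by
    intro h0
    have := (intHom_injective _) (h0.trans (map_zero ι).symm)
    exact hπirr.ne_zero this
  obtain ⟨k, u, hu⟩ := IsDiscreteValuationRing.eq_unit_mul_pow_irreducible hne hϖirr
  have hk : k = e := by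
    have h1 : B.valuation (algebraMap K L π) = B.valuation ϖ ^ k := by
      have := congrArg (fun z : B => B.valuation (z : L)) hu
      simp only [intHom_coe, ι] at this
      rw [this]
      simp only [MulMemClass.coe_mul, SubmonoidClass.coe_pow, map_mul, map_pow]
      rw [B.valuation_unit u, one_mul]
    rw [hval] at h1
    have hpos := isUniformizer_val_pos (B := B) ⟨hϖm, hϖirr⟩
    have hlt := isUniformizer_val_lt_one (B := B) ⟨hϖm, hϖirr⟩
    have := (zpow_right_inj₀ hpos hlt.ne (m := (e : ℤ)) (n := (k : ℤ))).1 (by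
      rw [zpow_natCast, zpow_natCast]; exact h1)
    exact_mod_cast this.symm
  rw [hu, hk]
  exact Ideal.span_singleton_eq_span_singleton.2 ⟨u⁻¹, by
    rw [mul_comm, ← mul_assoc, Units.inv_mul, one_mul]⟩


include hA hB hπ hϖ hval in
/-- `B` is a finitely generated `A`-module. -/
theorem module_finite_int (he : 0 < e) :
    @Module.Finite A B _ _
      (intHom (fun x hx => algebraMap_mem_of_mem hA hB hπ hϖ hval hx)).toAlgebra.toModule := by
  classical
  haveI : IsDiscreteValuationRing A := hA.1
  haveI : IsDiscreteValuationRing B := hB.1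
  haveI : IsAdicComplete (IsLocalRing.maximalIdeal A) A := hA.2.1
  haveI : IsAdicComplete (IsLocalRing.maximalIdeal B) B := hB.2.1
  haveI : Finite (IsLocalRing.ResidueField B) := hB.2.2
  set ι := intHom (fun x hx => algebraMap_mem_of_mem hA hB hπ hϖ hval hx) with hι
  letI : Algebra A B := ι.toAlgebra
  have hmap : Ideal.map ι (IsLocalRing.maximalIdeal A) = IsLocalRing.maximalIdeal B ^ e :=
    map_maximalIdeal_eq hA hB hπ hϖ hval
  haveI hfinB : Finite (B ⧸ IsLocalRing.maximalIdeal B) := hB.2.2
  haveI hfinq : Finite (B ⧸ IsLocalRing.maximalIdeal B ^ e) :=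
    Ideal.finite_quotient_pow (IsNoetherian.noetherian _) e
  obtain ⟨hπm, hπirr⟩ := hπ
  set πA : A := ⟨π, hπm⟩ with hπA
  have hmA : IsLocalRing.maximalIdeal A = Ideal.span {πA} := hπirr.maximalIdeal_eq
  have hmapspan : Ideal.map ι (IsLocalRing.maximalIdeal A) = Ideal.span {ι πA} := by
    rw [hmA, Ideal.map_span, Set.image_singleton]
  have hιπ : ι πA ∈ IsLocalRing.maximalIdeal B := by
    have h1 : ι πA ∈ Ideal.map ι (IsLocalRing.maximalIdeal A) := by
      rw [hmapspan]; exact Ideal.mem_span_singleton_self _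
    rw [hmap] at h1
    exact Ideal.pow_le_self he.ne' h1
  have hprec : IsPrecomplete (Ideal.span {πA}) A := by
    rw [← hmA]; exact IsAdicComplete.toIsPrecomplete
  have hhaus : ∀ x : B, (∀ n : ℕ, ∃ z : B, x = πA ^ n • z) → x = 0 := by
    intro x hx
    have hH : IsHausdorff (IsLocalRing.maximalIdeal B) B := IsAdicComplete.toIsHausdorff
    apply hH.haus
    intro n
    rw [SModEq.sub_mem, sub_zero, smul_eq_mul, Ideal.mul_top]
    obtain ⟨z, hz⟩ := hx n
    rw [hz, Algebra.smul_def, map_pow]
    exact Ideal.mul_mem_right _ _ (Ideal.pow_mem_pow hιπ n)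
  haveI hfinQ : Finite (B ⧸ Ideal.span {ι πA}) := by
    rw [← hmapspan, hmap]; exact hfinq
  letI : Fintype (B ⧸ Ideal.span {ι πA}) := Fintype.ofFinite _
  let s : (B ⧸ Ideal.span {ι πA}) → B := fun q => Quotient.out q
  have happrox : ∀ y : B, ∃ (a : (B ⧸ Ideal.span {ι πA}) → A) (z : B),
      y = ∑ i, a i • s i + πA • z := by
    intro y
    have h1 : y - s (Ideal.Quotient.mk _ y) ∈ Ideal.span {ι πA} := by
      rw [← Ideal.Quotient.eq]
      exact (Ideal.Quotient.mk_out _).symm
    obtain ⟨z, hz⟩ := Ideal.mem_span_singleton'.1 h1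
    refine ⟨fun q => if q = Ideal.Quotient.mk _ y then 1 else 0, z, ?_⟩
    have h2 : ∑ i, (if i = Ideal.Quotient.mk (Ideal.span {ι πA}) y then (1 : A) else 0) • s i
        = s (Ideal.Quotient.mk _ y) := by
      rw [Finset.sum_eq_single (Ideal.Quotient.mk (Ideal.span {ι πA}) y)]
      · simp
      · intro b _ hb; simp [hb]
      · intro h; exact absurd (Finset.mem_univ _) h
    rw [h2, Algebra.smul_def]
    have : (algebraMap A B) πA * z = z * ι πA := mul_comm _ _
    rw [this, hz]
    ring
  have hspan := exists_sum_smul_eq_of_approx πA hprec hhaus s happrox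
  apply Module.Finite.of_fg_top
  have : (⊤ : Submodule A B) = Submodule.span A (Set.range s) := by
    apply le_antisymm
    · intro y _
      obtain ⟨α, hα⟩ := hspan y
      rw [hα]
      exact Submodule.sum_mem _ fun i _ =>
        Submodule.smul_mem _ _ (Submodule.subset_span ⟨i, rfl⟩)
    · exact le_top
  rw [this]
  exact Submodule.fg_span (Set.finite_range s)


include hA hB hπ hϖ hval in
/-- **Fundamental identity, cardinality form**: `|k_B| ^ e = |k_A| ^ [L : K]`. -/
theorem card_residue_pow_eq (he : 0 < e) :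
    Nat.card (IsLocalRing.ResidueField B) ^ e =
      Nat.card (IsLocalRing.ResidueField A) ^ Module.finrank K L := by
  classical
  haveI : IsDiscreteValuationRing A := hA.1
  haveI : IsDiscreteValuationRing B := hB.1
  haveI : Finite (IsLocalRing.ResidueField A) := hA.2.2
  haveI : Finite (IsLocalRing.ResidueField B) := hB.2.2
  set ι := intHom (fun x hx => algebraMap_mem_of_mem hA hB hπ hϖ hval hx) with hι
  letI : Algebra A B := ι.toAlgebra
  haveI : IsScalarTower A B L := IsScalarTower.of_algebraMap_eq (fun x => rfl)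
  have hmap : Ideal.map (algebraMap A B) (IsLocalRing.maximalIdeal A)
      = IsLocalRing.maximalIdeal B ^ e := map_maximalIdeal_eq hA hB hπ hϖ hval
  haveI hfin : Module.Finite A B := module_finite_int hA hB hπ hϖ hval he
  haveI : Module.IsTorsionFree A B :=
    Module.isTorsionFree_iff_algebraMap_injective.mpr (intHom_injective _)
  haveI : Module.Free A B := Module.free_of_finite_type_torsion_free'
  have hrank : Module.finrank K L = Module.finrank A B := IsFractionRing.finrank_eq A K B L
  -- the residue field of `A` as a field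
  letI : Field (A ⧸ IsLocalRing.maximalIdeal A) :=
    inferInstanceAs (Field (IsLocalRing.ResidueField A))
  -- `|B / 𝔪_A B| = q ^ n`
  have h5 : Nat.card (B ⧸ (IsLocalRing.maximalIdeal A • ⊤ : Submodule A B)) =
      Nat.card (A ⧸ IsLocalRing.maximalIdeal A) ^ Module.finrank A B := by
    have e1 := TensorProduct.quotTensorEquivQuotSMul B (IsLocalRing.maximalIdeal A)
    rw [← Nat.card_congr e1.toEquiv,
      Module.natCard_eq_pow_finrank (K := A ⧸ IsLocalRing.maximalIdeal A), Module.finrank_baseChange]
  -- `|B / 𝔪_A B| = |B / 𝔪_B ^ e|`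
  have h6 : Nat.card (B ⧸ (IsLocalRing.maximalIdeal A • ⊤ : Submodule A B)) =
      Nat.card (B ⧸ IsLocalRing.maximalIdeal B ^ e) := by
    have e2 : (IsLocalRing.maximalIdeal A • ⊤ : Submodule A B) =
        Submodule.restrictScalars A (IsLocalRing.maximalIdeal B ^ e) := by
      rw [Ideal.smul_top_eq_map, hmap]
    rw [Nat.card_congr (Submodule.quotEquivOfEq _ _ e2).toEquiv]
    exact Nat.card_congr (Submodule.Quotient.restrictScalarsEquiv A _).toEquiv
  have h7 : Nat.card (B ⧸ IsLocalRing.maximalIdeal B ^ e) =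
      Nat.card (B ⧸ IsLocalRing.maximalIdeal B) ^ e := by
    have := cardQuot_pow_of_prime (P := IsLocalRing.maximalIdeal B)
      (IsDiscreteValuationRing.not_a_field B) (i := e)
    rwa [Submodule.cardQuot_apply, Submodule.cardQuot_apply] at this
  have h8 : Nat.card (IsLocalRing.ResidueField B) = Nat.card (B ⧸ IsLocalRing.maximalIdeal B) := rfl
  have h9 : Nat.card (IsLocalRing.ResidueField A) = Nat.card (A ⧸ IsLocalRing.maximalIdeal A) := rfl
  rw [h8, h9, hrank, ← h7, ← h6, h5]

end

end Fermat.Agent.S55.L.H355
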