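import Fermat.Agent.S55.L.H355.LocBasic

/-!
# S55, layer L, helper355: units of a complete DVR with finite residue field are killed by every
homomorphism to `ℤ`

Consequences: compatibility of rings of integers in extensions and under automorphisms.
-/

set_option autoImplicit false
set_option linter.style.haveILetI false

namespace Fermat.Agent.S55.L.H355

open Fermat.Agent.S55.L

section

variable {K : Type} [Field K] {A : ValuationSubring K}

theorem card_residue_cast_eq_zero (hA : IsLocalRingOfIntegers A) :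
    ((Nat.card (IsLocalRing.ResidueField A) : ℕ) : IsLocalRing.ResidueField A) = 0 := by
  haveI : Finite (IsLocalRing.ResidueField A) := hA.2.2
  haveI : Fintype (IsLocalRing.ResidueField A) := Fintype.ofFinite _
  rw [Nat.card_eq_fintype_card]
  exact Nat.cast_card_eq_zero _

theorem one_lt_card_residue (hA : IsLocalRingOfIntegers A) :
    1 < Nat.card (IsLocalRing.ResidueField A) := by
  haveI : Finite (IsLocalRing.ResidueField A) := hA.2.2
  exact Finite.one_lt_card

/-- Hensel: an element of `1 + 𝔪` is an `n`-th power for every `n ≡ 1` modulo `|k|`. -/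
theorem exists_pow_eq_of_sub_one_mem (hA : IsLocalRingOfIntegers A) (a : A)
    (ha : a - 1 ∈ IsLocalRing.maximalIdeal A) (j : ℕ) :
    ∃ w : A, w ^ (Nat.card (IsLocalRing.ResidueField A) * j + 1) = a := by
  haveI : IsAdicComplete (IsLocalRing.maximalIdeal A) A := hA.2.1
  haveI := IsAdicComplete.henselianRing A (IsLocalRing.maximalIdeal A)
  set n := Nat.card (IsLocalRing.ResidueField A) * j + 1 with hn
  have hn0 : n ≠ 0 := by omega
  have h1 : Polynomial.eval (1 : A) (Polynomial.X ^ n - Polynomial.C a)
      ∈ IsLocalRing.maximalIdeal A := by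
    simp only [Polynomial.eval_sub, Polynomial.eval_pow, Polynomial.eval_X, one_pow,
      Polynomial.eval_C]
    have : (1 : A) - a = -(a - 1) := by ring
    rw [this]
    exact (IsLocalRing.maximalIdeal A).neg_mem ha
  have h2 : IsUnit ((Ideal.Quotient.mk (IsLocalRing.maximalIdeal A))
      (Polynomial.eval (1 : A) (Polynomial.derivative (Polynomial.X ^ n - Polynomial.C a)))) := by
    have hd : Polynomial.eval (1 : A) (Polynomial.derivative (Polynomial.X ^ n - Polynomial.C a))
        = (n : A) := by
      simp [Polynomial.derivative_X_pow]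
    rw [hd, map_natCast]
    have hq := card_residue_cast_eq_zero hA
    have : ((n : ℕ) : A ⧸ IsLocalRing.maximalIdeal A) = 1 := by
      rw [hn]
      push_cast
      have hq' : ((Nat.card (IsLocalRing.ResidueField A) : ℕ) :
          A ⧸ IsLocalRing.maximalIdeal A) = 0 := hq
      rw [hq']
      simp
    rw [this]
    exact isUnit_one
  obtain ⟨w, hw, -⟩ := HenselianRing.is_henselian (R := A) (I := IsLocalRing.maximalIdeal A)
    (Polynomial.X ^ n - Polynomial.C a) (Polynomial.monic_X_pow_sub_C a hn0) 1 h1 h2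
  refine ⟨w, ?_⟩
  have := hw
  simp only [Polynomial.IsRoot, Polynomial.eval_sub, Polynomial.eval_pow, Polynomial.eval_X,
    Polynomial.eval_C] at this
  exact sub_eq_zero.1 this

/-- A homomorphism to `ℤ` kills principal units. -/
theorem hom_principalUnit_eq_one (hA : IsLocalRingOfIntegers A) (v : Kˣ →* Multiplicative ℤ)
    {u : Kˣ} (huA : (u : K) ∈ A) (hu : (⟨(u : K), huA⟩ : A) - 1 ∈ IsLocalRing.maximalIdeal A) :
    v u = 1 := by
  set t : ℤ := Multiplicative.toAdd (v u) with ht
  have hdiv : ∀ j : ℕ, ((Nat.card (IsLocalRing.ResidueField A) * j + 1 : ℕ) : ℤ) ∣ t := by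
    intro j
    obtain ⟨w, hw⟩ := exists_pow_eq_of_sub_one_mem hA ⟨(u : K), huA⟩ hu j
    have hwK : (w : K) ^ (Nat.card (IsLocalRing.ResidueField A) * j + 1) = (u : K) := by
      have := congrArg Subtype.val hw
      simpa using this
    have hw0 : (w : K) ≠ 0 := by
      intro h0
      rw [h0, zero_pow (by omega)] at hwK
      exact u.ne_zero hwK.symm
    have hW : (Units.mk0 (w : K) hw0) ^ (Nat.card (IsLocalRing.ResidueField A) * j + 1) = u := by
      apply Units.ext
      simpa using hwK
    refine ⟨Multiplicative.toAdd (v (Units.mk0 (w : K) hw0)), ?_⟩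
    rw [ht, ← hW, map_pow]
    simp
  have hq := one_lt_card_residue hA
  by_contra hne
  have ht0 : t ≠ 0 := by
    intro h0
    apply hne
    have : Multiplicative.toAdd (v u) = Multiplicative.toAdd (1 : Multiplicative ℤ) := by
      rw [← ht, h0]; rfl
    exact Multiplicative.toAdd.injective this
  have h1 := hdiv t.natAbs
  have h2 := Int.le_of_dvd (Int.natAbs_pos.2 ht0 |> Int.natCast_pos.2)
    ((Int.dvd_natAbs).2 h1)
  have h3 : (t.natAbs : ℤ) < ((Nat.card (IsLocalRing.ResidueField A) * t.natAbs + 1 : ℕ) : ℤ) := by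
    have h4 : t.natAbs ≤ Nat.card (IsLocalRing.ResidueField A) * t.natAbs :=
      Nat.le_mul_of_pos_left _ (by omega)
    have : t.natAbs < Nat.card (IsLocalRing.ResidueField A) * t.natAbs + 1 := by omega
    exact_mod_cast this
  omega

/-- **(H)** A homomorphism to `ℤ` kills the units of a complete DVR with finite residue field. -/
theorem hom_unitGroup_eq_one (hA : IsLocalRingOfIntegers A) (v : Kˣ →* Multiplicative ℤ)
    {u : Kˣ} (hu : u ∈ A.unitGroup) : v u = 1 := by
  haveI : Finite (IsLocalRing.ResidueField A) := hA.2.2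
  haveI : Fintype (IsLocalRing.ResidueField A) := Fintype.ofFinite _
  have hq := one_lt_card_residue hA
  set q := Nat.card (IsLocalRing.ResidueField A) with hqdef
  -- `u ^ (q - 1)` is a principal unit
  have huval : A.valuation (u : K) = 1 := (A.mem_unitGroup_iff u).1 hu
  have huA : (u : K) ∈ A := (A.valuation_le_one_iff _).1 huval.le
  have hunit : IsUnit (⟨(u : K), huA⟩ : A) := (A.valuation_eq_one_iff _).2 huval
  have hres : IsLocalRing.residue A ⟨(u : K), huA⟩ ≠ 0 := by
    rw [Ne, IsLocalRing.residue_eq_zero_iff]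
    exact IsLocalRing.notMem_maximalIdeal.2 hunit
  have hpow : (IsLocalRing.residue A ⟨(u : K), huA⟩) ^ (q - 1) = 1 := by
    have := FiniteField.pow_card_sub_one_eq_one _ hres
    rwa [← Nat.card_eq_fintype_card] at this
  have hu'A : ((u ^ (q - 1) : Kˣ) : K) ∈ A := by
    rw [Units.val_pow_eq_pow_val]
    exact A.pow_mem huA _
  have hprinc : (⟨((u ^ (q - 1) : Kˣ) : K), hu'A⟩ : A) - 1 ∈ IsLocalRing.maximalIdeal A := by
    rw [← IsLocalRing.residue_eq_zero_iff, map_sub, map_one, sub_eq_zero]
    have : (⟨((u ^ (q - 1) : Kˣ) : K), hu'A⟩ : A) = (⟨(u : K), huA⟩ : A) ^ (q - 1) := by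
      apply Subtype.ext
      simp
    rw [this, map_pow, hpow]
  have h1 := hom_principalUnit_eq_one hA v hu'A hprinc
  rw [map_pow] at h1
  have h2 : (q - 1 : ℕ) • Multiplicative.toAdd (v u) = 0 := by
    have := congrArg Multiplicative.toAdd h1
    simpa using this
  have h3 : Multiplicative.toAdd (v u) = 0 := by
    rcases smul_eq_zero.1 h2 with h | h
    · omega
    · exact h
  exact Multiplicative.toAdd.injective h3

end

section Ext

variable {K L : Type} [Field K] [Field L] {A : ValuationSubring K} {B : ValuationSubring L}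

/-- Units of the ring of integers of `K` map to units of any discrete valuation subring of any
field receiving `K`. -/
theorem map_mem_unitGroup (hA : IsLocalRingOfIntegers A) (hB : IsDiscreteValuationRing B)
    (τ : K →+* L) {u : Kˣ} (hu : u ∈ A.unitGroup) : Units.map (τ : K →* L) u ∈ B.unitGroup := by
  obtain ⟨ϖ, hϖ⟩ := exists_isUniformizer hB
  have := hom_unitGroup_eq_one hA ((ordHom hB hϖ).comp (Units.map (τ : K →* L))) hu
  rw [MonoidHom.comp_apply] at this
  rw [← ordZ_eq_zero_iff hB hϖ]
  have h2 := congrArg Multiplicative.toAdd this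
  simpa using h2

/-- Integers of `K` map to integers of `L`, if some uniformizer of `K` is a non-unit of `B`. -/
theorem map_mem_of_mem (hA : IsLocalRingOfIntegers A) (hB : IsDiscreteValuationRing B)
    (τ : K →+* L) {π : K} (hπ : IsUniformizer A π) (hπB : τ π ∈ B) {x : K} (hx : x ∈ A) :
    τ x ∈ B := by
  by_cases h0 : x = 0
  · rw [h0, map_zero]; exact B.zero_mem
  have hAd : IsDiscreteValuationRing A := hA.1
  have hm : 0 ≤ ordZ A π (Units.mk0 x h0) := (ordZ_nonneg_iff hAd hπ _).2 hx
  obtain ⟨m, hm'⟩ := Int.eq_ofNat_of_zero_le hm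
  -- `x = π ^ m * u`
  have hπ0 : π ≠ 0 := isUniformizer_ne_zero hπ
  set u : Kˣ := Units.mk0 x h0 * (Units.mk0 π hπ0) ^ (-(m : ℤ)) with hu
  have hord : ordZ A π u = 0 := by
    rw [hu, ordZ_mul hAd hπ, ordZ_zpow hAd hπ, ordZ_uniformizer hAd hπ (Units.mk0 π hπ0) rfl, hm']
    ring
  have huU : u ∈ A.unitGroup := (ordZ_eq_zero_iff hAd hπ u).1 hord
  have hx' : x = π ^ m * (u : K) := by
    have e1 : (u : K) = x * (π ^ m)⁻¹ := by
      rw [hu, Units.val_mul, zpow_neg, zpow_natCast, Units.val_inv_eq_inv_val,
        Units.val_pow_eq_pow_val]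
      rfl
    rw [e1]
    field_simp
  have h1 := map_mem_unitGroup hA hB τ huU
  have h2 : τ (u : K) ∈ B := by
    have := (B.mem_unitGroup_iff _).1 h1
    exact (B.valuation_le_one_iff _).1 this.le
  rw [hx', map_mul, map_pow]
  exact B.mul_mem _ _ (B.pow_mem hπB _) h2

end Ext

end Fermat.Agent.S55.L.H355
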