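import Fermat.Agent.S55.L.SpecInv

/-!
# S55, layer L, helper355: the normalised valuation `ordZ` of a discrete valuation subring

For a valuation subring `B` of `L` which is a DVR with uniformizer `ϖ`, `ordZ B ϖ : Lˣ → ℤ` is the
normalised valuation; `ordHom` is the corresponding homomorphism `Lˣ →* Multiplicative ℤ`.
-/

set_option autoImplicit false

namespace Fermat.Agent.S55.L.H355

open Fermat.Agent.S55.L

section

variable {L : Type} [Field L] {B : ValuationSubring L} {ϖ : L}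

theorem isUniformizer_mem (h : IsUniformizer B ϖ) : ϖ ∈ B := h.1

theorem isUniformizer_ne_zero (h : IsUniformizer B ϖ) : ϖ ≠ 0 := by
  obtain ⟨hm, hirr⟩ := h
  intro h0
  apply hirr.ne_zero
  exact Subtype.ext h0

theorem isUniformizer_val_lt_one (h : IsUniformizer B ϖ) : B.valuation ϖ < 1 := by
  obtain ⟨hm, hirr⟩ := h
  have h1 : ¬ IsUnit (⟨ϖ, hm⟩ : B) := hirr.not_isUnit
  have h2 : (⟨ϖ, hm⟩ : B) ∈ IsLocalRing.maximalIdeal B := by
    rw [IsLocalRing.mem_maximalIdeal]
    exact h1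
  exact (B.valuation_lt_one_iff _).1 h2

theorem isUniformizer_val_pos (h : IsUniformizer B ϖ) : 0 < B.valuation ϖ := by
  rw [Valuation.pos_iff]
  exact isUniformizer_ne_zero h

theorem exists_isUniformizer (hB : IsDiscreteValuationRing B) : ∃ ϖ : L, IsUniformizer B ϖ := by
  obtain ⟨p, hp⟩ := IsDiscreteValuationRing.exists_irreducible B
  exact ⟨p.1, p.2, hp⟩

/-- Every nonzero element is a power of the uniformizer up to a unit (valuation form). -/
theorem exists_val_eq_zpow (hB : IsDiscreteValuationRing B) (h : IsUniformizer B ϖ) (x : Lˣ) :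
    ∃ m : ℤ, B.valuation (x : L) = B.valuation ϖ ^ m := by
  obtain ⟨hm, hirr⟩ := h
  have key : ∀ y : L, y ≠ 0 → y ∈ B → ∃ n : ℕ, B.valuation y = B.valuation ϖ ^ n := by
    intro y hy0 hyB
    have hy' : (⟨y, hyB⟩ : B) ≠ 0 := fun h0 => hy0 (congrArg Subtype.val h0)
    obtain ⟨n, u, hu⟩ := IsDiscreteValuationRing.eq_unit_mul_pow_irreducible hy' hirr
    refine ⟨n, ?_⟩
    have h1 : y = (u : B) * ϖ ^ n := by
      have := congrArg Subtype.val hu
      simpa using this
    rw [h1, map_mul, map_pow, B.valuation_unit u, one_mul]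
  rcases B.mem_or_inv_mem (x : L) with hx | hx
  · obtain ⟨n, hn⟩ := key x x.ne_zero hx
    exact ⟨n, by rw [hn, zpow_natCast]⟩
  · obtain ⟨n, hn⟩ := key (x : L)⁻¹ (inv_ne_zero x.ne_zero) hx
    refine ⟨-n, ?_⟩
    rw [map_inv₀] at hn
    rw [zpow_neg, zpow_natCast, ← hn, inv_inv]

open Classical in
/-- The normalised valuation of `x : Lˣ` (junk `0` if `B` is not a DVR with uniformizer `ϖ`). -/
noncomputable def ordZ (B : ValuationSubring L) (ϖ : L) (x : Lˣ) : ℤ :=
  if h : ∃ m : ℤ, B.valuation (x : L) = B.valuation ϖ ^ m then h.choose else 0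

theorem val_eq_zpow_ordZ (hB : IsDiscreteValuationRing B) (h : IsUniformizer B ϖ) (x : Lˣ) :
    B.valuation (x : L) = B.valuation ϖ ^ ordZ B ϖ x := by
  classical
  unfold ordZ
  rw [dif_pos (exists_val_eq_zpow hB h x)]
  exact (exists_val_eq_zpow hB h x).choose_spec

theorem ordZ_eq_of_val_eq (hB : IsDiscreteValuationRing B) (h : IsUniformizer B ϖ) (x : Lˣ)
    {m : ℤ} (hm : B.valuation (x : L) = B.valuation ϖ ^ m) : ordZ B ϖ x = m := by
  have h1 := val_eq_zpow_ordZ hB h x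
  rw [hm] at h1
  exact ((zpow_right_inj₀ (isUniformizer_val_pos h) (isUniformizer_val_lt_one h).ne).1 h1).symm

theorem ordZ_mul (hB : IsDiscreteValuationRing B) (h : IsUniformizer B ϖ) (x y : Lˣ) :
    ordZ B ϖ (x * y) = ordZ B ϖ x + ordZ B ϖ y := by
  apply ordZ_eq_of_val_eq hB h
  rw [Units.val_mul, map_mul, val_eq_zpow_ordZ hB h x, val_eq_zpow_ordZ hB h y,
    zpow_add₀ (isUniformizer_val_pos h).ne']

theorem ordZ_one (hB : IsDiscreteValuationRing B) (h : IsUniformizer B ϖ) :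
    ordZ B ϖ (1 : Lˣ) = 0 := by
  apply ordZ_eq_of_val_eq hB h
  simp

/-- The normalised valuation as a homomorphism. -/
noncomputable def ordHom (hB : IsDiscreteValuationRing B) (h : IsUniformizer B ϖ) :
    Lˣ →* Multiplicative ℤ where
  toFun x := Multiplicative.ofAdd (ordZ B ϖ x)
  map_one' := by rw [ordZ_one hB h]; rfl
  map_mul' x y := by rw [ordZ_mul hB h, ofAdd_add]

@[simp] theorem ordHom_apply (hB : IsDiscreteValuationRing B) (h : IsUniformizer B ϖ) (x : Lˣ) :
    Multiplicative.toAdd (ordHom hB h x) = ordZ B ϖ x := rfl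

theorem ordZ_inv (hB : IsDiscreteValuationRing B) (h : IsUniformizer B ϖ) (x : Lˣ) :
    ordZ B ϖ x⁻¹ = -ordZ B ϖ x := by
  have := ordZ_mul hB h x x⁻¹
  rw [mul_inv_cancel, ordZ_one hB h] at this
  omega

theorem ordZ_pow (hB : IsDiscreteValuationRing B) (h : IsUniformizer B ϖ) (x : Lˣ) (n : ℕ) :
    ordZ B ϖ (x ^ n) = n * ordZ B ϖ x := by
  induction n with
  | zero => simp [ordZ_one hB h]
  | succ n ih => rw [pow_succ, ordZ_mul hB h, ih]; push_cast; ring

theorem ordZ_zpow (hB : IsDiscreteValuationRing B) (h : IsUniformizer B ϖ) (x : Lˣ) (n : ℤ) :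
    ordZ B ϖ (x ^ n) = n * ordZ B ϖ x := by
  cases n with
  | ofNat n => simpa using ordZ_pow hB h x n
  | negSucc n =>
    rw [zpow_negSucc, ordZ_inv hB h, ordZ_pow hB h]
    push_cast
    rw [Int.negSucc_eq]
    ring

theorem ordZ_eq_zero_iff (hB : IsDiscreteValuationRing B) (h : IsUniformizer B ϖ) (x : Lˣ) :
    ordZ B ϖ x = 0 ↔ x ∈ B.unitGroup := by
  rw [B.mem_unitGroup_iff, val_eq_zpow_ordZ hB h x]
  constructor
  · intro h0; rw [h0, zpow_zero]
  · intro h1
    have : B.valuation ϖ ^ ordZ B ϖ x = B.valuation ϖ ^ (0 : ℤ) := by rw [h1, zpow_zero]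
    exact (zpow_right_inj₀ (isUniformizer_val_pos h) (isUniformizer_val_lt_one h).ne).1 this

theorem ordZ_nonneg_iff (hB : IsDiscreteValuationRing B) (h : IsUniformizer B ϖ) (x : Lˣ) :
    0 ≤ ordZ B ϖ x ↔ (x : L) ∈ B := by
  rw [← B.valuation_le_one_iff, val_eq_zpow_ordZ hB h x,
    zpow_le_one_iff_right_of_lt_one₀ (isUniformizer_val_pos h) (isUniformizer_val_lt_one h)]

theorem ordZ_pos_iff (hB : IsDiscreteValuationRing B) (h : IsUniformizer B ϖ) (x : Lˣ) :
    0 < ordZ B ϖ x ↔ (x : L) ∈ B.nonunits := by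
  rw [B.mem_nonunits_iff, val_eq_zpow_ordZ hB h x,
    zpow_lt_one_iff_right_of_lt_one₀ (isUniformizer_val_pos h) (isUniformizer_val_lt_one h)]

theorem ordZ_uniformizer (hB : IsDiscreteValuationRing B) (h : IsUniformizer B ϖ) (u : Lˣ)
    (hu : (u : L) = ϖ) : ordZ B ϖ u = 1 := by
  apply ordZ_eq_of_val_eq hB h
  rw [hu, zpow_one]

/-- `ordZ` of a second uniformizer is `1`. -/
theorem ordZ_of_isUniformizer (hB : IsDiscreteValuationRing B) (h : IsUniformizer B ϖ) (u : Lˣ)
    (hu : IsUniformizer B (u : L)) : ordZ B ϖ u = 1 := by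
  obtain ⟨hm, hirr⟩ := h
  obtain ⟨hm', hirr'⟩ := hu
  have hass : Associated (⟨(u : L), hm'⟩ : B) ⟨ϖ, hm⟩ :=
    IsDiscreteValuationRing.associated_of_irreducible B hirr' hirr
  obtain ⟨w, hw⟩ := hass
  apply ordZ_eq_of_val_eq hB ⟨hm, hirr⟩
  have h1 : ϖ = (u : L) * (w : B) := by
    have := congrArg Subtype.val hw
    simpa using this.symm
  have h2 : B.valuation ϖ = B.valuation (u : L) := by
    conv_lhs => rw [h1]
    rw [map_mul, B.valuation_unit w, mul_one]
  rw [zpow_one, h2]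

/-- Elements of `L` are integral iff they are `0` or have nonnegative `ordZ`. -/
theorem mem_iff_ordZ (hB : IsDiscreteValuationRing B) (h : IsUniformizer B ϖ) (x : L) :
    x ∈ B ↔ x = 0 ∨ ∃ u : Lˣ, (u : L) = x ∧ 0 ≤ ordZ B ϖ u := by
  constructor
  · intro hx
    by_cases h0 : x = 0
    · exact Or.inl h0
    · exact Or.inr ⟨Units.mk0 x h0, rfl, (ordZ_nonneg_iff hB h _).2 hx⟩
  · rintro (rfl | ⟨u, rfl, hu⟩)
    · exact B.zero_mem
    · exact (ordZ_nonneg_iff hB h u).1 hu

end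

end Fermat.Agent.S55.L.H355
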